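import Fermat.Agent.S27.Spine.B.Defs
import Fermat.Agent.S27.A1h326
import Fermat.Agent.S27.A.Bridge

/-!
S27 Spine, B-MAIN leaf BA (helper9326 skeleton c477f772; statements FROZEN).  Proofs by helper242:
* A1 from helper326's `A1h326.exists_place_of_valuationSubring` (verbatim file
  `Fermat/Agent/S27/A1h326.lean`) + T0 from package A (`A.exists_transcendental_finite`,
  helper4826's `A/Bridge.lean`);
* `F ≠ ℂ` from `Ω[F⁄ℂ] ≠ 0`.
-/

set_option autoImplicit false

open AlgebraicCurve

namespace Fermat.Agent.S27.Spine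

variable {F : Type*} [Field F] [Algebra ℂ F]

/-- **Leaf BA-1 (= A1).** A valuation ring of `F` containing `ℂ`, not equal to `F`, is a
principal ideal ring. -/
theorem isPrincipalIdealRing_valuationSubring [IsCurveOver ℂ F] [Algebra.EssFiniteType ℂ F]
    (O : ValuationSubring F) (hO : ∀ c : ℂ, algebraMap ℂ F c ∈ O) (htop : O ≠ ⊤) :
    IsPrincipalIdealRing O := by
  obtain ⟨x, hx, hfd⟩ := A.exists_transcendental_finite (K := ℂ) (F := F)
  obtain ⟨v, rfl⟩ := A1h326.exists_place_of_valuationSubring x hx O hO htop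
  exact v.isPrincipalIdealRing'

/-- **Leaf BA-2.** `F ≠ ℂ`. -/
theorem not_surjective_algebraMap [IsCurveOver ℂ F] :
    ¬ Function.Surjective (algebraMap ℂ F) := by
  intro h
  have h1 : Subsingleton (Ω[F⁄ℂ]) := KaehlerDifferential.subsingleton_of_surjective ℂ F h
  have h2 : Nontrivial (Ω[F⁄ℂ]) := inferInstance
  exact not_subsingleton _ h1

end Fermat.Agent.S27.Spine
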