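/-
S27 SPINE, package B-MAIN (helper9326): the Riemann surface structure on `Place ℂ F`.

Goal (file `B/Main.lean`):  `∃ top : TopologicalSpace (Place ℂ F), @IsRS F _ _ top`.

The topology is the one of helper8954's `Fermat/Agent/S27/PlaceTop.lean` (B4, sorry-free):
the coarsest topology making all evaluations `Q ↦ evPlace Q f : OnePoint ℂ` continuous.
`IsPreChart` is the topology-free part of `Spine.IsChart`.   FROZEN (helper9326).
-/
import Fermat.Agent.S27.Spine.Defs
import Fermat.Agent.S27.PlaceTop

set_option autoImplicit false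

open AlgebraicCurve

namespace Fermat.Agent.S27.Spine

variable {F : Type*} [Field F] [Algebra ℂ F]

/-- The topology-free part of `IsChart`: a family of places `κ τ`, `|τ| < ε`, with coordinate
function `t` (`t (κ τ) = τ`), such that every function regular at `κ τ` is holomorphic at `τ`
when read along `κ`, with order of vanishing equal to the order at the place. -/
structure IsPreChart (κ : ℂ → Place ℂ F) (ε : ℝ) (t : F) : Prop where
  pos : 0 < ε
  hasValue_unif : ∀ τ ∈ Metric.ball (0 : ℂ) ε, HasValue (κ τ) t τ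
  analyticAt : ∀ (f : F) (τ : ℂ), τ ∈ Metric.ball (0 : ℂ) ε → 0 ≤ (κ τ).ord f →
    AnalyticAt ℂ (fun σ => value (κ σ) f) τ
  order_eq : ∀ (f : F) (τ : ℂ), τ ∈ Metric.ball (0 : ℂ) ε → f ≠ 0 → 0 ≤ (κ τ).ord f →
    analyticOrderAt (fun σ => value (κ σ) f) τ = (((κ τ).ord f).toNat : ℕ∞)

/-- Every place is the centre of a pre-chart (what leaf B3 delivers). -/
def HasPreCharts (F : Type*) [Field F] [Algebra ℂ F] : Prop :=
  ∀ P : Place ℂ F, ∃ (κ : ℂ → Place ℂ F) (ε : ℝ) (t : F), IsPreChart κ ε t ∧ κ 0 = P

end Fermat.Agent.S27.Spine
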