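/-
S27 SPINE B-MAIN, leaf B3: pre-charts exist (t-adic expansion A8 + convergence B2 + B1).

PROVED (helper2186): adapter on helper6746's concrete analytic chart `Chart6746.exists_isChart`
(vendored, namespaces renamed, under `Fermat/Agent/S27/H2186/`: `AlgConv` = helper8196 B2,
`TAdic6326` = helper6326 A8, `Chart6746/*` + `T0` = helper6746) and `H2186/ChartFacts.lean`.
-/
import Fermat.Agent.S27.Spine.B.Defs
import Fermat.Agent.S27.H2186.ChartFacts
import Fermat.Agent.S27.H2186.T0

set_option autoImplicit false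

open AlgebraicCurve

namespace Fermat.Agent.S27.Spine

variable {F : Type*} [Field F] [Algebra ℂ F]

namespace B3h2186

open Metric Set Filter Topology
open Fermat.Agent.S27.H2186 Fermat.Agent.S27.H2186.Chart6746

/-- `Spine.value Q f = c` as soon as `c` is a value of `f` at `Q`. -/
theorem value_eq_of_hasValue {Q : Place ℂ F} {f : F} {c : ℂ} (h : HasValue Q f c) :
    value Q f = c := by
  have hex : ∃ c, HasValue Q f c := ⟨c, h⟩
  unfold value
  rw [dif_pos hex]
  exact ChartFacts.value_unique Q hex.choose_spec h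

theorem value_zero (Q : Place ℂ F) : value Q (0 : F) = 0 :=
  value_eq_of_hasValue (Or.inl (by simp))

variable {P : Place ℂ F} {t : F} {ε : ℝ} {κ : ℂ → Place ℂ F} {m : F → ℂ → ℂ}

/-- In a chart of helper6746, the Spine value of a regular function is its chart reading. -/
theorem value_eq (h : Chart6746.IsChart P t ε κ m) (f : F) {τ : ℂ} (hτ : ‖τ‖ < ε)
    (hord : 0 ≤ (κ τ).ord f) : value (κ τ) f = m f τ :=
  value_eq_of_hasValue (ChartFacts.eq_or_ord_sub_pos h f hτ hord)

theorem eventuallyEq_value (h : Chart6746.IsChart P t ε κ m) {f : F} (hf : f ≠ 0) {τ : ℂ} (hτ : ‖τ‖ < ε)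
    (hord : 0 ≤ (κ τ).ord f) : (fun σ => value (κ σ) f) =ᶠ[𝓝 τ] m f := by
  filter_upwards [ChartFacts.eventually_ord_nonneg h hf hτ hord] with σ hσ
  exact value_eq h f hσ.1 hσ.2

/-- A chart of helper6746 is a Spine pre-chart. -/
theorem isPreChart_of_isChart (h : Chart6746.IsChart P t ε κ m) : IsPreChart κ ε t where
  pos := h.pos
  hasValue_unif τ hτ := ChartFacts.unif_value h (mem_ball_zero_iff.mp hτ)
  analyticAt f τ hτ hord := by
    have hτ' : ‖τ‖ < ε := mem_ball_zero_iff.mp hτ
    by_cases hf : f = 0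
    · subst hf
      simp only [value_zero]
      exact analyticAt_const
    · exact (ChartFacts.analyticAt_of_ord_nonneg h hf hτ' hord).congr
        (eventuallyEq_value h hf hτ' hord).symm
  order_eq f τ hτ hf hord := by
    have hτ' : ‖τ‖ < ε := mem_ball_zero_iff.mp hτ
    rw [analyticOrderAt_congr (eventuallyEq_value h hf hτ' hord)]
    exact ChartFacts.analyticOrderAt_eq h hf hτ' hord

/-- Every place has a uniformizer. -/
theorem exists_ord_eq_one (P : Place ℂ F) : ∃ t : F, P.ord t = 1 := by
  obtain ⟨π, hπ⟩ := IsDiscreteValuationRing.exists_irreducible P.toValuationSubring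
  exact ⟨(π : F), P.ord_coe_irreducible hπ⟩

end B3h2186

/-- **Leaf B3.** Every place of a function field over `ℂ` is the centre of a pre-chart.
[`t` a uniformizer at `P`, `ι : F → ℂ((X))` the `t`-adic expansion (A8: helper434 `TAdic434`);
every `ι f` is a quotient of power series converging on a common disc (B2 + finite generation);
`κ τ` := the place of the valuation `ord_τ ∘ ι` (B1: helper9326 `B1h9326.ordValFrac`,
B3-abs: helper74 `ChartB3h74`).] -/
theorem hasPreCharts [IsCurveOver ℂ F] [Algebra.EssFiniteType ℂ F] : HasPreCharts F := by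
  intro P
  obtain ⟨x, hx, hfin⟩ :=
    Fermat.Agent.S27.H2186.T0.exists_transcendental_finiteDimensional_of_isAlgClosed
      (K := ℂ) (F := F)
  obtain ⟨t, ht⟩ := B3h2186.exists_ord_eq_one P
  obtain ⟨ε, κ, m, h⟩ := Fermat.Agent.S27.H2186.Chart6746.exists_isChart x hx P t ht
  exact ⟨κ, ε, t, B3h2186.isPreChart_of_isChart h, h.center⟩

end Fermat.Agent.S27.Spine
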