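/-
S27 SPINE B-MAIN, leaf B3c: pre-charts are continuous for the topology of `PlaceTop`.
-/
import Fermat.Agent.S27.Spine.B.Defs

set_option autoImplicit false

open AlgebraicCurve Fermat.Agent.S27.PlaceTop OnePoint

namespace Fermat.Agent.S27.Spine

section General

variable {K F : Type*} [Field K] [Field F] [Algebra K F]

/-- `HasValue` in terms of `evPlace`. -/
theorem hasValue_iff_evPlace (Q : Place K F) (f : F) (c : K) :
    HasValue Q f c ↔ evPlace Q f = (c : OnePoint K) :=
  (evPlace_eq_coe_iff_ord Q).symm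

theorem HasValue.unique {Q : Place K F} {f : F} {c c' : K} (h : HasValue Q f c)
    (h' : HasValue Q f c') : c = c' := by
  rw [hasValue_iff_evPlace] at h h'
  exact OnePoint.coe_injective (h.symm.trans h')

theorem value_eq_of_hasValue {Q : Place K F} {f : F} {c : K} (h : HasValue Q f c) :
    value Q f = c := by
  have hex : ∃ c, HasValue Q f c := ⟨c, h⟩
  unfold value
  rw [dif_pos hex]
  exact HasValue.unique hex.choose_spec h

theorem evPlace_eq_coe_value_of_ne_infty {Q : Place K F} {f : F} (h : evPlace Q f ≠ ∞) :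
    evPlace Q f = ((value Q f : K) : OnePoint K) := by
  obtain ⟨c, hc⟩ := OnePoint.ne_infty_iff_exists.mp h
  rw [← hc, value_eq_of_hasValue ((hasValue_iff_evPlace Q f c).mpr hc.symm)]

end General

variable {F : Type*} [Field F] [Algebra ℂ F]

/-- Along a pre-chart, a function regular at `κ τ` is regular at `κ σ` for `σ` near `τ`, and
its evaluation is continuous at `τ`. -/
theorem IsPreChart.continuousAt_evPlace_of_regular [IsCurveOver ℂ F] {κ : ℂ → Place ℂ F}
    {ε : ℝ} {t : F} (h : IsPreChart κ ε t) {τ : ℂ} (hτ : τ ∈ Metric.ball (0 : ℂ) ε) (f : F)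
    (hf : 0 ≤ (κ τ).ord f) : ContinuousAt (fun σ => evPlace (κ σ) f) τ := by
  have hrat : ∀ Q : Place ℂ F, IsRational Q := fun Q => isRational_of_isCurveOver Q
  -- the value of `f` at `κ τ`
  have hne : evPlace (κ τ) f ≠ ∞ := by
    rw [Ne, evPlace_eq_infty_iff_ord (κ τ) (hrat _)]
    exact not_lt.mpr hf
  obtain ⟨c, hc⟩ := OnePoint.ne_infty_iff_exists.mp hne
  -- `g = f - c + 1` has value `1` at `κ τ`
  set g : F := f + algebraMap ℂ F (1 - c) with hg
  have hgval : ∀ Q : Place ℂ F, ∀ b : ℂ, evPlace Q f = (b : OnePoint ℂ) →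
      evPlace Q g = ((b + (1 - c) : ℂ) : OnePoint ℂ) := fun Q b hb =>
    evPlace_add Q hb (evPlace_algebraMap Q (1 - c))
  have hg1 : evPlace (κ τ) g = ((1 : ℂ) : OnePoint ℂ) := by
    have := hgval (κ τ) c hc.symm
    rwa [add_sub_cancel] at this
  have hg0 : g ≠ 0 := by
    intro h0
    rw [h0, evPlace_zero] at hg1
    exact zero_ne_one (OnePoint.coe_injective hg1)
  -- `g⁻¹` has value `1` at `κ τ`
  have hginv : evPlace (κ τ) g⁻¹ = ((1 : ℂ) : OnePoint ℂ) := by
    rw [evPlace_inv (κ τ) (hrat _) hg0, hg1, sphereInv_coe_of_ne_zero one_ne_zero, inv_one]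
  have hginv_ord : 0 ≤ (κ τ).ord g⁻¹ := by
    by_contra hlt
    have := (evPlace_eq_infty_iff_ord (κ τ) (hrat _)).mpr (not_le.mp hlt)
    rw [hginv] at this
    exact OnePoint.coe_ne_infty _ this
  have hA := (h.analyticAt g⁻¹ τ hτ hginv_ord).continuousAt
  have hAτ : value (κ τ) g⁻¹ = 1 :=
    value_eq_of_hasValue ((hasValue_iff_evPlace _ _ _).mpr hginv)
  have hAne : ∀ᶠ σ in nhds τ, value (κ σ) g⁻¹ ≠ 0 := by
    have : value (κ τ) g⁻¹ ≠ 0 := by rw [hAτ]; exact one_ne_zero
    exact hA.eventually_ne this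
  -- hence `f` is regular at `κ σ` for `σ` near `τ`
  have hreg : ∀ᶠ σ in nhds τ, evPlace (κ σ) f = ((value (κ σ) f : ℂ) : OnePoint ℂ) := by
    filter_upwards [hAne] with σ hσ
    apply evPlace_eq_coe_value_of_ne_infty
    intro hinf
    -- then `g` has a pole at `κ σ`, so `g⁻¹` vanishes there
    have hginf : evPlace (κ σ) g = ∞ := by
      by_contra hgne
      obtain ⟨b, hb⟩ := OnePoint.ne_infty_iff_exists.mp hgne
      have hfb : evPlace (κ σ) (g + algebraMap ℂ F (-(1 - c))) = ((b + -(1 - c) : ℂ) : OnePoint ℂ) :=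
        evPlace_add (κ σ) hb.symm (evPlace_algebraMap (κ σ) (-(1 - c)))
      have hgf : g + algebraMap ℂ F (-(1 - c)) = f := by
        rw [hg, map_neg]
        ring
      rw [hgf, hinf] at hfb
      exact OnePoint.infty_ne_coe _ hfb
    have h0 : evPlace (κ σ) g⁻¹ = ((0 : ℂ) : OnePoint ℂ) := by
      rw [evPlace_inv (κ σ) (hrat _) hg0, hginf, sphereInv_infty]
    exact hσ (value_eq_of_hasValue ((hasValue_iff_evPlace _ _ _).mpr h0))
  have hcont : ContinuousAt (fun σ => ((value (κ σ) f : ℂ) : OnePoint ℂ)) τ :=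
    OnePoint.continuous_coe.continuousAt.comp (h.analyticAt f τ hτ hf).continuousAt
  exact hcont.congr (hreg.mono fun σ hσ => hσ.symm)

/-- Along a pre-chart, every evaluation is continuous. -/
theorem IsPreChart.continuousAt_evPlace [IsCurveOver ℂ F] {κ : ℂ → Place ℂ F}
    {ε : ℝ} {t : F} (h : IsPreChart κ ε t) {τ : ℂ} (hτ : τ ∈ Metric.ball (0 : ℂ) ε) (f : F) :
    ContinuousAt (fun σ => evPlace (κ σ) f) τ := by
  have hrat : ∀ Q : Place ℂ F, IsRational Q := fun Q => isRational_of_isCurveOver Q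
  by_cases hf : 0 ≤ (κ τ).ord f
  · exact h.continuousAt_evPlace_of_regular hτ f hf
  · have hf0 : f ≠ 0 := by
      intro h0
      rw [h0, Place.ord_zero] at hf
      exact hf le_rfl
    have hinv : 0 ≤ (κ τ).ord f⁻¹ := by
      rw [Place.ord_inv]
      omega
    have h1 := h.continuousAt_evPlace_of_regular hτ f⁻¹ hinv
    have h2 : (fun σ => evPlace (κ σ) f) = fun σ => sphereInv (evPlace (κ σ) f⁻¹) := by
      funext σ
      rw [← evPlace_inv (κ σ) (hrat _) (inv_ne_zero hf0), inv_inv]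
    rw [h2]
    exact continuous_sphereInv.continuousAt.comp h1

/-- **Leaf B3c.** A pre-chart is continuous on its disc. -/
theorem IsPreChart.continuousOn [IsCurveOver ℂ F] {κ : ℂ → Place ℂ F} {ε : ℝ} {t : F}
    (h : IsPreChart κ ε t) : ContinuousOn κ (Metric.ball 0 ε) := by
  intro τ hτ
  apply ContinuousAt.continuousWithinAt
  rw [isInducing_ev.continuousAt_iff, continuousAt_pi]
  intro f
  exact h.continuousAt_evPlace hτ f

/-- **Leaf B3c'.** A pre-chart is injective on its disc. -/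
theorem IsPreChart.injOn {κ : ℂ → Place ℂ F} {ε : ℝ} {t : F}
    (h : IsPreChart κ ε t) : Set.InjOn κ (Metric.ball 0 ε) := by
  intro τ hτ τ' hτ' heq
  have h1 := h.hasValue_unif τ hτ
  have h2 := h.hasValue_unif τ' hτ'
  rw [heq] at h1
  exact HasValue.unique h1 h2

end Fermat.Agent.S27.Spine
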