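/-
S27 SPINE B-MAIN, leaf B5: pre-charts are open maps.

Proof (helper3806): instantiate the abstract chart-openness theorem of helper3002
(`ChartOpen3002.chart_image_mem_nhds`) with `T Q = evPlace Q t`.  The fibre bound and the
identity `∑ e_j = n` come from "zeros = poles" (principal divisors have degree `0`, places have
degree `1`, and `t - c` has the same poles as `t`); the chart at `κ τ₀` is the recentred `κ`,
the charts at the other zeros of `t - τ₀` come from `HasPreCharts`.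
-/
import Fermat.Agent.S27.Spine.B.B3c
import Fermat.Agent.S27.Spine.Value
import Fermat.Agent.S27.ChartOpen3002

set_option autoImplicit false

open AlgebraicCurve Fermat.Agent.S27.PlaceTop

namespace Fermat.Agent.S27.Spine

namespace B5aux

open Fermat.Agent.S24.A564 Val

section Degree

variable {K F : Type*} [Field K] [Field F] [Algebra K F]

/-- The divisor of zeros. -/
noncomputable def posPart (D : Divisor K F) : Divisor K F :=
  D.mapRange (fun n : ℤ => max n 0) (by simp)

/-- The divisor of poles. -/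
noncomputable def negPart (D : Divisor K F) : Divisor K F :=
  D.mapRange (fun n : ℤ => max (-n) 0) (by simp)

theorem posPart_apply (D : Divisor K F) (v : Place K F) : posPart D v = max (D v) 0 :=
  Finsupp.mapRange_apply ..

theorem negPart_apply (D : Divisor K F) (v : Place K F) : negPart D v = max (-D v) 0 :=
  Finsupp.mapRange_apply ..

theorem posPart_sub_negPart (D : Divisor K F) : posPart D - negPart D = D := by
  ext v
  rw [Finsupp.sub_apply, posPart_apply, negPart_apply]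
  rcases le_total (D v) 0 with h | h
  · rw [max_eq_right h, max_eq_left (by omega)]; omega
  · rw [max_eq_left h, max_eq_right (by omega)]; omega

theorem degree_eq_sum (hdeg : ∀ v : Place K F, v.deg = 1) (D : Divisor K F) :
    Divisor.degree D = ∑ v ∈ D.support, D v := by
  unfold Divisor.degree
  rw [Finsupp.liftAddHom_apply, Finsupp.sum]
  refine Finset.sum_congr rfl fun v _ => ?_
  simp [hdeg v]

theorem degree_posPart (D : Divisor K F) (hD : Divisor.degree D = 0) :
    Divisor.degree (posPart D) = Divisor.degree (negPart D) := by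
  have := congrArg Divisor.degree (posPart_sub_negPart D)
  rw [map_sub, hD] at this
  linarith

theorem card_le_degree_posPart (hdeg : ∀ v : Place K F, v.deg = 1) (D : Divisor K F)
    (T : Finset (Place K F)) (hT : ∀ Q ∈ T, 0 < D Q) :
    (T.card : ℤ) ≤ Divisor.degree (posPart D) := by
  rw [degree_eq_sum hdeg]
  have hsub : T ⊆ (posPart D).support := by
    intro Q hQ
    rw [Finsupp.mem_support_iff, posPart_apply, max_eq_left (hT Q hQ).le]
    exact (hT Q hQ).ne'
  have h1 : ∑ v ∈ T, posPart D v ≤ ∑ v ∈ (posPart D).support, posPart D v := by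
    refine Finset.sum_le_sum_of_subset_of_nonneg hsub fun v _ _ => ?_
    rw [posPart_apply]
    exact le_max_right _ _
  have h2 : (T.card : ℤ) ≤ ∑ v ∈ T, posPart D v := by
    rw [Finset.card_eq_sum_ones, Nat.cast_sum]
    refine Finset.sum_le_sum fun v hv => ?_
    rw [posPart_apply, max_eq_left (hT v hv).le]
    have := hT v hv
    push_cast
    omega
  exact h2.trans h1

/-- `f - c` has the same poles as `f`. -/
theorem negPart_sub_const (f : F) (c : K) (D D' : Divisor K F) (hD : ∀ v, D v = v.ord f)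
    (hD' : ∀ v, D' v = v.ord (f - algebraMap K F c)) (hf : f ≠ 0)
    (hfc : f - algebraMap K F c ≠ 0) : negPart D' = negPart D := by
  ext v
  rw [negPart_apply, negPart_apply, hD, hD']
  by_cases h : v.ord f < 0
  · rcases eq_or_ne c 0 with rfl | hc
    · rw [map_zero, sub_zero]
    · have hc0 : -algebraMap K F c ≠ 0 := by
        rw [neg_ne_zero, ne_eq, map_eq_zero_iff _ (algebraMap K F).injective]
        exact hc
      have hordc : v.ord (-algebraMap K F c) = 0 := by
        rw [← map_neg]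
        exact LD.ord_algebraMap v (-c)
      have := LD.ord_add_eq_of_lt v hf hc0 (by rw [hordc]; exact h)
      rw [sub_eq_add_neg, this]
  · have h1 : 0 ≤ v.ord f := not_lt.mp h
    have hmem : f ∈ v.toValuationSubring := mem_of_ord_nonneg v h1
    have hmem' : f - algebraMap K F c ∈ v.toValuationSubring :=
      sub_mem hmem (v.algebraMap_mem' c)
    have h2 : 0 ≤ v.ord (f - algebraMap K F c) := (LD.ord_nonneg_iff v hfc).mpr hmem'
    rw [max_eq_right (by omega), max_eq_right (by omega)]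

end Degree

variable {F : Type*} [Field F] [Algebra ℂ F]

/-- The coordinate of a pre-chart is not constant. -/
theorem prechart_nonconst {κ : ℂ → Place ℂ F} {ε : ℝ} {t : F} (h : IsPreChart κ ε t) (c : ℂ) :
    t - algebraMap ℂ F c ≠ 0 := by
  intro h0
  have ht : t = algebraMap ℂ F c := sub_eq_zero.mp h0
  have hmem0 : (0 : ℂ) ∈ Metric.ball (0 : ℂ) ε := Metric.mem_ball_self h.pos
  have hmem : ((ε / 2 : ℝ) : ℂ) ∈ Metric.ball (0 : ℂ) ε := by
    rw [Metric.mem_ball, dist_zero_right, Complex.norm_real, Real.norm_eq_abs,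
      abs_of_pos (half_pos h.pos)]
    linarith [h.pos]
  have e1 := hv_unique (h.hasValue_unif _ hmem0) (ht ▸ hasValue_const (κ 0) c)
  have e2 := hv_unique (h.hasValue_unif _ hmem) (ht ▸ hasValue_const (κ ((ε / 2 : ℝ) : ℂ)) c)
  have hε := h.pos
  rw [← e1, Complex.ofReal_eq_zero] at e2
  linarith

/-- `t - τ` is a uniformizer at `κ τ`. -/
theorem prechart_ord_unif {κ : ℂ → Place ℂ F} {ε : ℝ} {t : F} (h : IsPreChart κ ε t) {τ : ℂ}
    (hτ : τ ∈ Metric.ball (0 : ℂ) ε) : (κ τ).ord (t - algebraMap ℂ F τ) = 1 := by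
  have hv0 : HasValue (κ τ) (t - algebraMap ℂ F τ) (τ - τ) :=
    hv_sub_const (h.hasValue_unif τ hτ) τ
  have hreg : 0 ≤ (κ τ).ord (t - algebraMap ℂ F τ) := hv_ord_nonneg hv0
  have hord := h.order_eq _ τ hτ (prechart_nonconst h τ) hreg
  have hcongr : (fun σ => value (κ σ) (t - algebraMap ℂ F τ)) =ᶠ[nhds τ] fun σ => (σ - τ) ^ 1 := by
    filter_upwards [Metric.isOpen_ball.mem_nhds hτ] with σ hσ
    rw [pow_one]
    exact hv_value_eq (hv_sub_const (h.hasValue_unif σ hσ) τ)
  have hpi : (fun σ : ℂ => (σ - τ) ^ 1) = (fun x => x - τ) ^ 1 := rfl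
  rw [analyticOrderAt_congr hcongr, hpi, analyticOrderAt_centeredMonomial] at hord
  have h1 : ((κ τ).ord (t - algebraMap ℂ F τ)).toNat = 1 := by
    have := hord.symm
    exact_mod_cast this
  omega

/-- Local model of a function vanishing at the centre of a pre-chart. -/
theorem exists_local_model [IsCurveOver ℂ F] {κ' : ℂ → Place ℂ F} {ε' : ℝ} {t' : F}
    (h' : IsPreChart κ' ε' t') (f : F) (hf : f ≠ 0) (hreg : 0 ≤ (κ' 0).ord f) :
    ∃ (r : ℝ) (g : ℂ → ℂ), 0 < r ∧ r ≤ ε' ∧ AnalyticAt ℂ g 0 ∧ g 0 ≠ 0 ∧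
      ∀ s ∈ Metric.ball (0 : ℂ) r,
        evPlace (κ' s) f = ((s ^ ((κ' 0).ord f).toNat * g s : ℂ) : OnePoint ℂ) := by
  have h0 : (0 : ℂ) ∈ Metric.ball (0 : ℂ) ε' := Metric.mem_ball_self h'.pos
  have han := h'.analyticAt f 0 h0 hreg
  have hord := h'.order_eq f 0 h0 hf hreg
  obtain ⟨g, hg, hg0, hfac⟩ := han.analyticOrderAt_eq_natCast.mp hord
  have hne : evPlace (κ' 0) f ≠ OnePoint.infty := by
    rw [Ne, evPlace_eq_infty_iff_ord _ (isRational_of_isCurveOver _)]
    exact not_lt.mpr hreg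
  have hc := h'.continuousAt_evPlace h0 f
  have hev : ∀ᶠ s in nhds (0 : ℂ), evPlace (κ' s) f ≠ OnePoint.infty := hc.eventually_ne hne
  obtain ⟨r, hr, hball⟩ := Metric.eventually_nhds_iff.mp (hfac.and hev)
  refine ⟨min r ε', g, lt_min hr h'.pos, min_le_right _ _, hg, hg0, fun s hs => ?_⟩
  have hs' : dist s 0 < r := lt_of_lt_of_le (Metric.mem_ball.mp hs) (min_le_left _ _)
  obtain ⟨e1, e2⟩ := hball hs'
  rw [evPlace_eq_coe_value_of_ne_infty e2, e1, sub_zero, smul_eq_mul]

/-- The key neighbourhood statement. -/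
theorem image_ball_mem_nhds [IsCurveOver ℂ F] [CompactSpace (Place ℂ F)] [T2Space (Place ℂ F)]
    (hpre : HasPreCharts F) {κ : ℂ → Place ℂ F} {ε : ℝ} {t : F} (h : IsPreChart κ ε t) {τ₀ : ℂ}
    (hτ₀ : τ₀ ∈ Metric.ball (0 : ℂ) ε) {ρ : ℝ} (hρ : 0 < ρ) :
    κ '' Metric.ball τ₀ ρ ∈ nhds (κ τ₀) := by
  classical
  have hdeg : ∀ v : Place ℂ F, v.deg = 1 := IsCurveOver.deg_eq_one_of_isAlgClosed
  have hnc : ∀ c : ℂ, t - algebraMap ℂ F c ≠ 0 := prechart_nonconst h
  have ht0 : t ≠ 0 := by simpa using hnc 0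
  have hprin : HasPrincipalDivisors ℂ F := IsCurveOver.hasPrincipalDivisors
  obtain ⟨D, hD, hDdeg⟩ := hprin.exists_divisor t ht0
  -- divisors of `t - c`
  have hdivc : ∀ c : ℂ, ∃ Dc : Divisor ℂ F, (∀ v, Dc v = v.ord (t - algebraMap ℂ F c)) ∧
      Divisor.degree (posPart Dc) = Divisor.degree (negPart D) := by
    intro c
    obtain ⟨Dc, hDc, hDcdeg⟩ := hprin.exists_divisor _ (hnc c)
    exact ⟨Dc, hDc, by rw [degree_posPart Dc hDcdeg, negPart_sub_const t c D Dc hD hDc ht0 (hnc c)]⟩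
  obtain ⟨D₀, hD₀, hD₀deg⟩ := hdivc τ₀
  set Z : Finset (Place ℂ F) := (posPart D₀).support with hZdef
  have hZ : ∀ v, v ∈ Z ↔ 0 < v.ord (t - algebraMap ℂ F τ₀) := by
    intro v
    rw [hZdef, Finsupp.mem_support_iff, posPart_apply, hD₀]
    constructor
    · intro hne
      by_contra hle
      exact hne (max_eq_right (not_lt.mp hle))
    · intro hpos
      rw [max_eq_left hpos.le]
      exact hpos.ne'
  set e : Z → ℕ := fun j => (j.1.ord (t - algebraMap ℂ F τ₀)).toNat with he
  have hepos : ∀ j : Z, 0 < e j := by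
    intro j
    have := (hZ j.1).mp j.2
    show 0 < (j.1.ord (t - algebraMap ℂ F τ₀)).toNat
    omega
  have hord1 : (κ τ₀).ord (t - algebraMap ℂ F τ₀) = 1 := prechart_ord_unif h hτ₀
  set j₁ : Z := ⟨κ τ₀, (hZ _).mpr (by rw [hord1]; exact one_pos)⟩ with hj₁
  have he1 : e j₁ = 1 := by rw [he]; show ((κ τ₀).ord _).toNat = 1; rw [hord1]; rfl
  -- the number `n`
  have hn : ((∑ j : Z, e j : ℕ) : ℤ) = Divisor.degree (negPart D) := by
    rw [← hD₀deg, degree_eq_sum hdeg, Nat.cast_sum, ← hZdef, ← Finset.sum_coe_sort Z]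
    refine Finset.sum_congr rfl fun j _ => ?_
    rw [posPart_apply, hD₀, he]
    have := (hZ j.1).mp j.2
    rw [max_eq_left this.le]
    exact Int.toNat_of_nonneg this.le
  have hfib : ∀ τ : ℂ, ∀ T : Finset (Place ℂ F),
      (∀ Q ∈ T, evPlace Q t = ((τ : ℂ) : OnePoint ℂ)) → T.card ≤ ∑ j : Z, e j := by
    intro τ T hT
    obtain ⟨Dτ, hDτ, hDτdeg⟩ := hdivc τ
    have h1 := card_le_degree_posPart hdeg Dτ T (fun Q hQ => by
      rw [hDτ]
      exact ((evPlace_eq_coe_iff_ord Q).mp (hT Q hQ)).resolve_left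
        (fun heq => hnc τ (sub_eq_zero.mpr heq)))
    rw [hDτdeg, ← hn] at h1
    exact_mod_cast h1
  have hzero : ∀ Q : Place ℂ F, evPlace Q t = ((τ₀ : ℂ) : OnePoint ℂ) → ∃ j : Z, Q = j.1 := by
    intro Q hQ
    have := ((evPlace_eq_coe_iff_ord Q).mp hQ).resolve_left
      (fun heq => hnc τ₀ (sub_eq_zero.mpr heq))
    exact ⟨⟨Q, (hZ Q).mpr this⟩, rfl⟩
  -- local data at the zeros of `t - τ₀`
  have hdata : ∀ j : Z, ∃ (κj : ℂ → Place ℂ F) (rj : ℝ) (uj : ℂ → ℂ), 0 < rj ∧ κj 0 = j.1 ∧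
      ContinuousOn κj (Metric.ball 0 rj) ∧ Set.InjOn κj (Metric.ball 0 rj) ∧
      AnalyticAt ℂ uj 0 ∧ uj 0 ≠ 0 ∧
      (∀ s ∈ Metric.ball (0 : ℂ) rj,
        evPlace (κj s) t = ((τ₀ + s ^ e j * uj s : ℂ) : OnePoint ℂ)) ∧
      (j = j₁ → κj = fun s => κ (τ₀ + s)) := by
    intro j
    by_cases hj : j = j₁
    · have hpos : 0 < ε - ‖τ₀‖ := by
        have := Metric.mem_ball.mp hτ₀
        rw [dist_zero_right] at this
        linarith
      have hmaps : ∀ s ∈ Metric.ball (0 : ℂ) (ε - ‖τ₀‖), τ₀ + s ∈ Metric.ball (0 : ℂ) ε := by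
        intro s hs
        rw [Metric.mem_ball, dist_zero_right] at hs ⊢
        calc ‖τ₀ + s‖ ≤ ‖τ₀‖ + ‖s‖ := norm_add_le _ _
          _ < ε := by linarith
      refine ⟨fun s => κ (τ₀ + s), ε - ‖τ₀‖, fun _ => 1, hpos, ?_, ?_, ?_, analyticAt_const,
        one_ne_zero, ?_, fun _ => rfl⟩
      · rw [hj]; show κ (τ₀ + 0) = κ τ₀; rw [add_zero]
      · exact h.continuousOn.comp (continuous_const.add continuous_id).continuousOn hmaps
      · intro s hs s' hs' heq
        exact add_left_cancel (h.injOn (hmaps s hs) (hmaps s' hs') heq)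
      · intro s hs
        rw [hj, he1, pow_one, mul_one]
        exact (hasValue_iff_evPlace _ _ _).mp (h.hasValue_unif _ (hmaps s hs))
    · obtain ⟨κ', ε', t', h', h0'⟩ := hpre j.1
      have hjpos := (hZ j.1).mp j.2
      obtain ⟨r, g, hr, hrε, hg, hg0, hmodel⟩ := exists_local_model h' (t - algebraMap ℂ F τ₀)
        (hnc τ₀) (by rw [h0']; exact hjpos.le)
      refine ⟨κ', r, g, hr, h0', h'.continuousOn.mono (Metric.ball_subset_ball hrε),
        h'.injOn.mono (Metric.ball_subset_ball hrε), hg, hg0, fun s hs => ?_,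
        fun hh => absurd hh hj⟩
      have h1 := hmodel s hs
      rw [h0'] at h1
      have h2 := evPlace_add (κ' s) h1 (evPlace_algebraMap (κ' s) τ₀)
      rw [sub_add_cancel, add_comm] at h2
      exact h2
  choose κs rs us h1 h2 h3 h4 h5 h6 h7 h8 using hdata
  have key := ChartOpen3002.chart_image_mem_nhds (fun Q : Place ℂ F => evPlace Q t)
    (continuous_evPlace t) (∑ j : Z, e j) hfib (fun j : Z => j.1) Subtype.val_injective τ₀ hzero
    κs rs h2 h3 h4 e hepos rfl us h5 h6 h7 h1 j₁ hρ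
  rw [h8 j₁ rfl] at key
  have himg : (fun s => κ (τ₀ + s)) '' Metric.ball (0 : ℂ) ρ = κ '' Metric.ball τ₀ ρ := by
    ext Q
    constructor
    · rintro ⟨s, hs, rfl⟩
      refine ⟨τ₀ + s, ?_, rfl⟩
      rw [Metric.mem_ball, dist_eq_norm] at hs ⊢
      simpa using hs
    · rintro ⟨σ, hσ, rfl⟩
      refine ⟨σ - τ₀, ?_, by simp⟩
      rw [Metric.mem_ball, dist_eq_norm] at hσ ⊢
      simpa using hσ
  rw [himg] at key
  exact key

end B5aux

variable {F : Type*} [Field F] [Algebra ℂ F]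

/-- **Leaf B5.** If every place is the centre of a pre-chart, every pre-chart maps open subsets
of its disc to open sets.
[Fix `τ₀` in the disc.  The places over `t = τ₀` are `P₁ = κ τ₀, P₂, …, P_m` with
`e_i = ord_{P_i}(t - τ₀)`, `e₁ = 1`, `∑ e_i = n := deg (t)_∞` (principal divisors have degree 0,
places have degree 1).  In pre-charts `κ_i` at `P_i` with disjoint compact images, `t - τ₀` reads
as a function of exact order `e_i`, so takes each small value `≠ 0` at `e_i` distinct points: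
that is `n` places over `τ`, i.e. all of them.  Hence `{|t - τ₀| < δ} ⊆ ⋃ κ_i(closed disc)`, and
`κ(disc around τ₀)` is a neighbourhood of `κ τ₀`.  Abstract cores: helper3422 `B5Cover`,
helper6686 `B5Abs6686`, helper9422 `B5h9422`, helper7022, helper1802, helper1226.] -/
theorem IsPreChart.isOpen_image [IsCurveOver ℂ F] [CompactSpace (Place ℂ F)]
    [T2Space (Place ℂ F)] (hpre : HasPreCharts F) {κ : ℂ → Place ℂ F} {ε : ℝ} {t : F}
    (h : IsPreChart κ ε t) (U : Set ℂ) (hU : U ⊆ Metric.ball 0 ε) (hUo : IsOpen U) :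
    IsOpen (κ '' U) := by
  rw [isOpen_iff_mem_nhds]
  rintro _ ⟨τ₀, hτ₀U, rfl⟩
  obtain ⟨ρ, hρ, hρU⟩ := Metric.isOpen_iff.mp hUo τ₀ hτ₀U
  exact Filter.mem_of_superset (B5aux.image_ball_mem_nhds hpre h (hU hτ₀U) hρ)
    (Set.image_mono hρU)

end Fermat.Agent.S27.Spine
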