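/-
S27 SPINE B-MAIN, leaf B7: `Place ℂ F` is connected.   (proof: helper5126)
-/
import Fermat.Agent.S27.Spine.B.B3c

set_option autoImplicit false

open AlgebraicCurve Fermat.Agent.S27.PlaceTop

namespace Fermat.Agent.S27.Spine

variable {F : Type*} [Field F] [Algebra ℂ F]

namespace B7h5126

/-- A value of `f` at `Q` is unique, so it is `value Q f`. -/
theorem value_eq_of_hasValue (Q : Place ℂ F) {g : F} {c : ℂ} (h : HasValue Q g c) :
    value Q g = c := by
  have hex : ∃ c, HasValue Q g c := ⟨c, h⟩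
  have h1 : evPlace Q g = ((hex.choose : ℂ) : OnePoint ℂ) :=
    (evPlace_eq_coe_iff_ord Q).mpr hex.choose_spec
  have h2 : evPlace Q g = ((c : ℂ) : OnePoint ℂ) := (evPlace_eq_coe_iff_ord Q).mpr h
  have h3 : hex.choose = c := OnePoint.coe_injective (h1.symm.trans h2)
  unfold value
  rw [dif_pos hex, h3]

/-- A function regular at `Q` has a value there. -/
theorem hasValue_value [IsCurveOver ℂ F] (Q : Place ℂ F) {f : F} (hf : 0 ≤ Q.ord f) :
    HasValue Q f (value Q f) := by
  have hne : evPlace Q f ≠ OnePoint.infty := by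
    intro h
    have := (evPlace_eq_infty_iff_ord Q (isRational_of_isCurveOver Q)).mp h
    omega
  obtain ⟨c, hc⟩ := OnePoint.ne_infty_iff_exists.mp hne
  have h : HasValue Q f c := (evPlace_eq_coe_iff_ord Q).mp hc.symm
  rw [value_eq_of_hasValue Q h]
  exact h

theorem evPlace_eq_coe_value [IsCurveOver ℂ F] (Q : Place ℂ F) {f : F} (hf : 0 ≤ Q.ord f) :
    evPlace Q f = ((value Q f : ℂ) : OnePoint ℂ) :=
  (evPlace_eq_coe_iff_ord Q).mpr (hasValue_value Q hf)

theorem hasValue_sub_const (Q : Place ℂ F) {f : F} {c : ℂ} (h : HasValue Q f c) (c₀ : ℂ) :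
    HasValue Q (f - algebraMap ℂ F c₀) (c - c₀) := by
  unfold HasValue at h ⊢
  have e : f - algebraMap ℂ F c₀ - algebraMap ℂ F (c - c₀) = f - algebraMap ℂ F c := by
    rw [map_sub]
    ring
  rw [e]
  rcases h with h | h
  · left
    rw [h, map_sub]
  · exact Or.inr h

theorem value_sub_const [IsCurveOver ℂ F] (Q : Place ℂ F) {f : F} (hf : 0 ≤ Q.ord f) (c₀ : ℂ) :
    value Q (f - algebraMap ℂ F c₀) = value Q f - c₀ :=
  value_eq_of_hasValue Q (hasValue_sub_const Q (hasValue_value Q hf) c₀)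

/-- Riemann: a non-constant function whose only pole is at `P`. -/
theorem exists_nonconstant_single_pole (hRR : RRFacts ℂ F) (P : Place ℂ F) :
    ∃ f : F, (∀ c : ℂ, f ≠ algebraMap ℂ F c) ∧ ∀ Q : Place ℂ F, Q ≠ P → 0 ≤ Q.ord f := by
  set D : Divisor ℂ F := Finsupp.single P ((genusFF ℂ F : ℤ) + 1) with hD
  have hdeg : Divisor.degree D = (genusFF ℂ F : ℤ) + 1 := by
    rw [hD, Divisor.degree_single, hRR.deg_one P]
    simp
  have h2 : 2 ≤ ell D := by
    have := hRR.riemann D
    rw [hdeg] at this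
    omega
  by_contra hcon
  push Not at hcon
  -- every element of `L(D)` is a constant
  have hle : riemannRochSpace D ≤ Submodule.span ℂ {(1 : F)} := by
    intro f hf
    by_cases hconst : ∃ c : ℂ, f = algebraMap ℂ F c
    · obtain ⟨c, rfl⟩ := hconst
      rw [Submodule.mem_span_singleton]
      exact ⟨c, by rw [Algebra.smul_def, mul_one]⟩
    · exfalso
      push Not at hconst
      obtain ⟨Q, hQP, hQ⟩ := hcon f hconst
      have hf' := mem_riemannRochSpace_iff.mp hf Q
      have hf0 : f ≠ 0 := by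
        intro h0
        exact hconst 0 (by rw [h0, map_zero])
      rcases hf' with h | h
      · exact hf0 h
      · rw [hD, Finsupp.single_eq_of_ne hQP] at h
        omega
  have h1 : ell D ≤ 1 := by
    unfold ell
    calc Module.finrank ℂ (riemannRochSpace D)
        ≤ Module.finrank ℂ (Submodule.span ℂ {(1 : F)}) := Submodule.finrank_mono hle
      _ = 1 := finrank_span_singleton one_ne_zero
  omega

end B7h5126

open B7h5126 in
/-- **Leaf B7.** `Place ℂ F` is connected.
[Riemann: a non-constant `f ∈ L((g+1)·P)` has its only pole at `P`.  If `X = X₁ ⊔ X₂` with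
`X_i` clopen non-empty and `P ∈ X₁`, then `|f|` attains its maximum on the compact `X₂` at some
`Q`; read in a pre-chart at `Q`, `f` is holomorphic and non-constant (finite order of
`f - f(Q)`), contradicting the maximum principle.  Abstract core: helper6866 `ConnAbs`.] -/
theorem connectedSpace_place [IsCurveOver ℂ F] [CompactSpace (Place ℂ F)]
    [T2Space (Place ℂ F)] (hRR : RRFacts ℂ F) (hpre : HasPreCharts F) :
    ConnectedSpace (Place ℂ F) := by
  have : Infinite (Place ℂ F) := hRR.infinite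
  rw [connectedSpace_iff_clopen]
  refine ⟨inferInstance, fun S hS => ?_⟩
  by_contra hcon
  push Not at hcon
  obtain ⟨hSne, hSuniv⟩ := hcon
  obtain ⟨P, hP⟩ := hSne
  obtain ⟨Q₁, hQ₁⟩ : (Sᶜ).Nonempty := by
    rw [Set.nonempty_compl]
    exact hSuniv
  obtain ⟨f, hfconst, hfreg⟩ := exists_nonconstant_single_pole hRR P
  have hregT : ∀ Q ∈ Sᶜ, 0 ≤ Q.ord f := fun Q hQ => hfreg Q (fun h => hQ (h ▸ hP))
  have hTcomp : IsCompact Sᶜ := hS.2.isClosed_compl.isCompact
  have hTopen : IsOpen Sᶜ := hS.1.isOpen_compl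
  -- continuity of the value on `Sᶜ`
  have hcont : ContinuousOn (fun Q : Place ℂ F => ‖value Q f‖) Sᶜ := by
    have h1 : ContinuousOn (fun Q : Place ℂ F => value Q f) Sᶜ := by
      rw [continuousOn_iff_continuous_domRestrict]
      rw [OnePoint.isOpenEmbedding_coe.isInducing.continuous_iff]
      have h2 : Continuous (fun Q : (Sᶜ : Set (Place ℂ F)) => evPlace Q.1 f) :=
        (continuous_evPlace f).comp continuous_subtype_val
      convert h2 using 1
      funext Q
      exact (evPlace_eq_coe_value Q.1 (hregT Q.1 Q.2)).symm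
    exact h1.norm
  obtain ⟨Q₀, hQ₀, hmax⟩ := hTcomp.exists_isMaxOn ⟨Q₁, hQ₁⟩ hcont
  obtain ⟨κ, ε, t, hκ, h0⟩ := hpre Q₀
  -- a small disc mapped into `Sᶜ`
  have hopen : IsOpen (Metric.ball (0 : ℂ) ε ∩ κ ⁻¹' Sᶜ) :=
    hκ.continuousOn.isOpen_inter_preimage Metric.isOpen_ball hTopen
  have h0mem : (0 : ℂ) ∈ Metric.ball (0 : ℂ) ε ∩ κ ⁻¹' Sᶜ :=
    ⟨Metric.mem_ball_self hκ.pos, by rw [Set.mem_preimage, h0]; exact hQ₀⟩
  obtain ⟨δ, hδ, hball⟩ := Metric.isOpen_iff.mp hopen 0 h0mem
  -- the function read in the chart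
  have hdiff : DifferentiableOn ℂ (fun σ => value (κ σ) f) (Metric.ball (0 : ℂ) δ) := by
    intro τ hτ
    have hτ' := hball hτ
    exact (hκ.analyticAt f τ hτ'.1 (hregT _ hτ'.2)).differentiableAt.differentiableWithinAt
  have hmax' : IsMaxOn (norm ∘ fun σ => value (κ σ) f) (Metric.ball (0 : ℂ) δ) 0 := by
    intro τ hτ
    have hτ' := hball hτ
    have := hmax hτ'.2
    change ‖value (κ τ) f‖ ≤ ‖value (κ 0) f‖
    rw [h0]
    exact this
  have heq := Complex.eqOn_of_isPreconnected_of_isMaxOn_norm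
    (convex_ball (0 : ℂ) δ).isPreconnected Metric.isOpen_ball hdiff (Metric.mem_ball_self hδ) hmax'
  -- `f - f(Q₀)` vanishes identically in the chart but is not zero
  set c₀ : ℂ := value (κ 0) f with hc₀
  have hf₁ : f - algebraMap ℂ F c₀ ≠ 0 := fun h => hfconst c₀ (sub_eq_zero.mp h)
  have hreg0 : 0 ≤ (κ 0).ord f := by rw [h0]; exact hregT Q₀ hQ₀
  have hreg₁ : 0 ≤ (κ 0).ord (f - algebraMap ℂ F c₀) := by
    rcases hasValue_value (κ 0) hreg0 with h | h
    · exact absurd h (hfconst _)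
    · exact h.le
  have hord := hκ.order_eq (f - algebraMap ℂ F c₀) 0 (Metric.mem_ball_self hκ.pos) hf₁ hreg₁
  have htop : analyticOrderAt (fun σ => value (κ σ) (f - algebraMap ℂ F c₀)) 0 = ⊤ := by
    rw [analyticOrderAt_eq_top]
    filter_upwards [Metric.ball_mem_nhds (0 : ℂ) hδ] with τ hτ
    have hτ' := hball hτ
    rw [value_sub_const (κ τ) (hregT _ hτ'.2) c₀]
    have := heq hτ
    simp only [Function.const_apply] at this
    rw [this]
    exact sub_self _
  rw [htop] at hord
  exact ENat.top_ne_natCast _ hord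

end Fermat.Agent.S27.Spine
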