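/-
S27 SPINE B-MAIN: assembly.  `Place ℂ F` is a compact connected Riemann surface (`IsRS`).
-/
import Fermat.Agent.S27.Spine.B.A1
import Fermat.Agent.S27.Spine.B.B3
import Fermat.Agent.S27.Spine.B.B5
import Fermat.Agent.S27.Spine.B.B7

set_option autoImplicit false

open AlgebraicCurve Fermat.Agent.S27.PlaceTop

namespace Fermat.Agent.S27.Spine

variable {F : Type*} [Field F] [Algebra ℂ F]

/-- **B-MAIN**, for the topology of `PlaceTop`. -/
theorem isRS_placeTop [IsCurveOver ℂ F] [Algebra.EssFiniteType ℂ F] (hRR : RRFacts ℂ F) :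
    IsRS F := by
  haveI hc : CompactSpace (Place ℂ F) :=
    compactSpace_place_complex (fun O hO htop => isPrincipalIdealRing_valuationSubring O hO htop)
      not_surjective_algebraMap
  haveI ht2 : T2Space (Place ℂ F) := t2Space_place_complex
  have hpre : HasPreCharts F := hasPreCharts
  refine ⟨hc, ht2, connectedSpace_place hRR hpre, fun P => ?_⟩
  obtain ⟨κ, ε, t, hκ, h0⟩ := hpre P
  exact ⟨κ, ε, t, ⟨hκ.pos, hκ.injOn, hκ.continuousOn, fun U hU hUo => hκ.isOpen_image hpre U hU hUo,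
    hκ.hasValue_unif, hκ.analyticAt, hκ.order_eq⟩, h0⟩

/-- **B-MAIN.** -/
theorem exists_isRS [IsCurveOver ℂ F] [Algebra.EssFiniteType ℂ F] (hRR : RRFacts ℂ F) :
    ∃ top : TopologicalSpace (Place ℂ F), @IsRS F _ _ top :=
  ⟨inferInstance, isRS_placeTop hRR⟩

end Fermat.Agent.S27.Spine
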